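/-
S18 / wave 4 (helper25): degree and separability data for a base function `x` related to a
function `j` by `j * x = Nm(x)`, `Nm` monic of degree `D > 1` with `Nm(0) ≠ 0`
(leaf `degree_data_of_rel` (B4d/B5d) of the bridge sub-skeleton of helper28; the Hauptmodul
relations are `j x = (x + 16)³` and `j x = (x + 27)(x + 3)³`).

Generic statements (Mathlib only):
* `relfinrank_adjoin_of_rel` : for `x` transcendental over `K`, `K(j) ≤ K(x)` and
  `[K(x) : K(j)] = D`  (transport of Mathlib's `RatFunc.finrank_eq_max_natDegree`);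
* `degree_data_generic` : the characteristic-zero / characteristic-`ℓ` comparison
  `[F : K(x)] ≤ [E : k(x̄)]` from `[F : K(j)] ≤ ψ ≤ [E : k(j̄)]`, finiteness of `F / K(x)` and
  separability of `E / k(x̄)`.
-/
import Mathlib
import Fermat.Prelude.Def_ModularCurve_LaurentCoeff

set_option autoImplicit false

open Polynomial IntermediateField

noncomputable section

namespace Fermat.Agent.S18.H25

section RatFuncDegree

variable {K : Type*} [Field K]

/-- The degrees of the reduced numerator and denominator of a quotient of coprime polynomials. -/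
theorem natDegree_num_denom_of_isCoprime {p q : K[X]} (hq : q ≠ 0) (hpq : IsCoprime p q) :
    (algebraMap K[X] (RatFunc K) p / algebraMap K[X] (RatFunc K) q).num.natDegree = p.natDegree ∧
    (algebraMap K[X] (RatFunc K) p / algebraMap K[X] (RatFunc K) q).denom.natDegree =
      q.natDegree := by
  set r : RatFunc K := algebraMap K[X] (RatFunc K) p / algebraMap K[X] (RatFunc K) q with hr
  have h : r.num * q = p * r.denom := (RatFunc.num_mul_eq_mul_denom_iff hq).mpr hr
  have hnd : IsCoprime r.num r.denom := RatFunc.isCoprime_num_denom r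
  have h1 : r.num ∣ p := hnd.dvd_of_dvd_mul_right (Dvd.intro _ h)
  have h2 : p ∣ r.num := hpq.dvd_of_dvd_mul_right (Dvd.intro _ h.symm)
  have h3 : r.denom ∣ q := hnd.symm.dvd_of_dvd_mul_left (Dvd.intro_left _ h.symm)
  have h4 : q ∣ r.denom := hpq.symm.dvd_of_dvd_mul_left (Dvd.intro_left _ h)
  exact ⟨natDegree_eq_of_degree_eq (degree_eq_degree_of_associated (associated_of_dvd_dvd h1 h2)),
    natDegree_eq_of_degree_eq (degree_eq_degree_of_associated (associated_of_dvd_dvd h3 h4))⟩

/-- A polynomial with nonzero constant coefficient is coprime to `X`. -/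
theorem isCoprime_X_of_eval_zero_ne_zero {p : K[X]} (hp0 : p.eval 0 ≠ 0) : IsCoprime p X := by
  refine ⟨C (p.eval 0)⁻¹, -(C (p.eval 0)⁻¹ * p.divX), ?_⟩
  have h := X_mul_divX_add p
  have hc : p.coeff 0 = p.eval 0 := by rw [coeff_zero_eq_eval_zero]
  have h1 : C (p.eval 0)⁻¹ * C (p.coeff 0) = 1 := by
    rw [hc, ← C_mul, inv_mul_cancel₀ hp0, C_1]
  calc C (p.eval 0)⁻¹ * p + -(C (p.eval 0)⁻¹ * p.divX) * X
      = C (p.eval 0)⁻¹ * (p - X * p.divX) := by ring
    _ = C (p.eval 0)⁻¹ * C (p.coeff 0) := by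
        congr 1
        rw [sub_eq_iff_eq_add, add_comm]
        exact h.symm
    _ = 1 := h1

end RatFuncDegree

section Generic

variable {K F : Type*} [Field K] [Field F] [Algebra K F]

/-- **Degree of `K(x)` over `K(j)`** when `j x = p(x)`, `p` monic of degree `≥ 1` with
`p(0) ≠ 0` and `x` transcendental: `K(j) ≤ K(x)` and `[K(x) : K(j)] = deg p`. -/
theorem relfinrank_adjoin_of_rel (x j : F) (hx : Transcendental K x) (p : K[X])
    (hp1 : 1 ≤ p.natDegree) (hp0 : p.eval 0 ≠ 0) (hrel : j * x = aeval x p) :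
    K⟮j⟯ ≤ K⟮x⟯ ∧ K⟮j⟯.relfinrank K⟮x⟯ = p.natDegree := by
  have hx0 : x ≠ 0 := by
    rintro rfl
    exact hx (isAlgebraic_zero)
  set f : RatFunc K := algebraMap K[X] (RatFunc K) p / algebraMap K[X] (RatFunc K) X with hf
  let e := RatFunc.algEquivOfTranscendental x hx
  let ι : RatFunc K →ₐ[K] F := (K⟮x⟯.val).comp (e : RatFunc K →ₐ[K] K⟮x⟯)
  have hιalg : ∀ g : K[X], ι (algebraMap K[X] (RatFunc K) g) = aeval x g := by
    intro g
    change ((e (algebraMap K[X] (RatFunc K) g) : K⟮x⟯) : F) = _
    rw [RatFunc.algEquivOfTranscendental_algebraMap]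
    have := Polynomial.aeval_algHom_apply (K⟮x⟯.val) (AdjoinSimple.gen K x) g
    simp
  have hιX : ι (RatFunc.X) = x := by
    change ((e RatFunc.X : K⟮x⟯) : F) = x
    exact RatFunc.algEquivOfTranscendental_X x hx
  have hιf : ι f = j := by
    rw [hf, map_div₀, hιalg, hιalg, aeval_X]
    exact (eq_div_of_mul_eq hx0 hrel).symm
  have hmap1 : IntermediateField.map ι K⟮f⟯ = K⟮j⟯ := by
    rw [adjoin_map, Set.image_singleton, hιf]
  have hmap2 : IntermediateField.map ι (⊤ : IntermediateField K (RatFunc K)) = K⟮x⟯ := by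
    rw [← RatFunc.adjoin_X, adjoin_map, Set.image_singleton, hιX]
  have hle : K⟮j⟯ ≤ K⟮x⟯ := by
    rw [← hmap1, ← hmap2]
    exact IntermediateField.map_mono ι le_top
  refine ⟨hle, ?_⟩
  rw [← hmap1, ← hmap2, relfinrank_map_map, relfinrank_top_right, RatFunc.finrank_eq_max_natDegree]
  obtain ⟨h1, h2⟩ := natDegree_num_denom_of_isCoprime (p := p) (q := X) X_ne_zero
    (isCoprime_X_of_eval_zero_ne_zero hp0)
  rw [← hf] at h1 h2
  rw [h1, h2, natDegree_X]
  exact max_eq_left hp1

/-- Ring homomorphisms out of `ℤ`: evaluation of an integral polynomial through a field. -/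
theorem aeval_map_intCast (x : F) (Nm : ℤ[X]) :
    aeval x (Nm.map (Int.castRingHom K)) = eval₂ (Int.castRingHom F) x Nm := by
  rw [aeval_def, eval₂_map]
  congr 1
  exact RingHom.ext_int _ _

/-- **Degree and separability data along a relation `j x = Nm(x)`** (generic form of the leaf
`degree_data_of_rel`).  `F / K` is the characteristic-zero function field, `E ≤ L` the special
fibre over `k`; `ψ` is the common degree bound over the `j`-lines. -/
theorem degree_data_generic (x j : F) (hxtr : Transcendental K x)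
    {k L : Type*} [Field k] [Field L] [Algebra k L] (E : IntermediateField k L) (xb jb : L)
    (hxb : xb ∈ E) (hxbtr : Transcendental k xb)
    (Nm : ℤ[X]) (hNm : Nm.Monic) (hNm1 : 1 < Nm.natDegree)
    (hK0 : ((Nm.eval 0 : ℤ) : K) ≠ 0) (hk0 : ((Nm.eval 0 : ℤ) : k) ≠ 0)
    (hrel : j * x = eval₂ (Int.castRingHom F) x Nm)
    (hrelk : jb * xb = eval₂ (Int.castRingHom L) xb Nm)
    (ψ : ℕ) (hfin : FiniteDimensional K⟮j⟯ F) (hle : Module.finrank K⟮j⟯ F ≤ ψ)
    (hψ : ψ ≤ k⟮jb⟯.relfinrank E) (hsep : ∀ y ∈ E, IsSeparable k⟮jb⟯ y) :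
    FiniteDimensional K⟮x⟯ F ∧ Module.finrank K⟮x⟯ F ≤ k⟮xb⟯.relfinrank E ∧
      ∀ y ∈ E, IsSeparable k⟮xb⟯ y := by
  have hD : 0 < Nm.natDegree := by omega
  -- characteristic zero
  have hdegK : (Nm.map (Int.castRingHom K)).natDegree = Nm.natDegree :=
    hNm.natDegree_map (Int.castRingHom K)
  have hevK : (Nm.map (Int.castRingHom K)).eval 0 ≠ 0 := by
    rw [eval_map, ← coe_eval₂RingHom]
    have : eval₂RingHom (Int.castRingHom K) 0 Nm = ((Nm.eval 0 : ℤ) : K) := by
      rw [coe_eval₂RingHom, eval₂_at_zero, coeff_zero_eq_eval_zero]; simp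
    rw [this]; exact hK0
  obtain ⟨hleK, hrK⟩ := relfinrank_adjoin_of_rel x j hxtr (Nm.map (Int.castRingHom K))
    (by rw [hdegK]; omega) hevK (by rw [aeval_map_intCast]; exact hrel)
  rw [hdegK] at hrK
  have h1 : Nm.natDegree * Module.finrank K⟮x⟯ F = Module.finrank K⟮j⟯ F := by
    rw [← hrK]; exact relfinrank_mul_finrank_top hleK
  have hpos : 0 < Module.finrank K⟮j⟯ F := Module.finrank_pos
  have hposx : 0 < Module.finrank K⟮x⟯ F := by
    rcases Nat.eq_zero_or_pos (Module.finrank K⟮x⟯ F) with h0 | h0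
    · rw [h0, Nat.mul_zero] at h1; omega
    · exact h0
  have hfinx : FiniteDimensional K⟮x⟯ F := Module.finite_of_finrank_pos hposx
  -- characteristic `ℓ`
  have hdegk : (Nm.map (Int.castRingHom k)).natDegree = Nm.natDegree :=
    hNm.natDegree_map (Int.castRingHom k)
  have hevk : (Nm.map (Int.castRingHom k)).eval 0 ≠ 0 := by
    rw [eval_map, ← coe_eval₂RingHom]
    have : eval₂RingHom (Int.castRingHom k) 0 Nm = ((Nm.eval 0 : ℤ) : k) := by
      rw [coe_eval₂RingHom, eval₂_at_zero, coeff_zero_eq_eval_zero]; simp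
    rw [this]; exact hk0
  obtain ⟨hlek, hrk⟩ := relfinrank_adjoin_of_rel xb jb hxbtr (Nm.map (Int.castRingHom k))
    (by rw [hdegk]; omega) hevk (by rw [aeval_map_intCast]; exact hrelk)
  rw [hdegk] at hrk
  have hxE : k⟮xb⟯ ≤ E := adjoin_simple_le_iff.mpr hxb
  have h2 : Nm.natDegree * k⟮xb⟯.relfinrank E = k⟮jb⟯.relfinrank E := by
    rw [← hrk]; exact relfinrank_mul_relfinrank hlek hxE
  refine ⟨hfinx, ?_, ?_⟩
  · have h3 : Nm.natDegree * Module.finrank K⟮x⟯ F ≤ Nm.natDegree * k⟮xb⟯.relfinrank E := by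
      rw [h1, h2]; exact hle.trans hψ
    exact Nat.le_of_mul_le_mul_left h3 hD
  · intro y hy
    let _ : Algebra k⟮jb⟯ k⟮xb⟯ := (IntermediateField.inclusion hlek).toRingHom.toAlgebra
    have : IsScalarTower k⟮jb⟯ k⟮xb⟯ L := IsScalarTower.of_algebraMap_eq fun a => rfl
    exact IsSeparable.tower_top k⟮xb⟯ (hsep y hy)

end Generic

section Transcendence

open ModularCurve

/-- A function with `A`-integral expansion whose reduction is transcendental over the residue
field is transcendental over the (algebraically closed) constant field. -/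
theorem transcendental_of_red {K : Type*} [Field K] [IsAlgClosed K] (A : ValuationSubring K)
    (Fld : IntermediateField K (LaurentSeries K)) (x : Fld) (X0 : LaurentSeries A)
    (hx : (x : LaurentSeries K) = coeffMap A.subtype X0)
    (htr : Transcendental (IsLocalRing.ResidueField A) (coeffMap (IsLocalRing.residue A) X0)) :
    Transcendental K x := by
  intro halg
  apply htr
  have hint := halg.isIntegral
  have hdeg := IsAlgClosed.degree_eq_one_of_irreducible K (minpoly.irreducible hint)
  obtain ⟨c, hc⟩ := minpoly.mem_range_of_degree_eq_one K x hdeg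
  have hxc : (x : LaurentSeries K) = HahnSeries.single 0 c := by
    rw [← hc, ← algebraMap_laurentSeries_eq_single]; rfl
  have hcoeff : ∀ n : ℤ, n ≠ 0 → X0.coeff n = 0 := by
    intro n hn
    have h1 : (coeffMap A.subtype X0).coeff n = 0 := by
      rw [← hx, hxc, HahnSeries.coeff_single_of_ne hn]
    rw [coeffMap_coeff] at h1
    exact Subtype.ext (by simpa using h1)
  have hred : coeffMap (IsLocalRing.residue A) X0 =
      algebraMap (IsLocalRing.ResidueField A) (LaurentSeries (IsLocalRing.ResidueField A))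
        (IsLocalRing.residue A (X0.coeff 0)) := by
    rw [algebraMap_laurentSeries_eq_single]
    ext n
    rw [coeffMap_coeff]
    rcases eq_or_ne n 0 with rfl | hn
    · rw [HahnSeries.coeff_single_same]
    · rw [HahnSeries.coeff_single_of_ne hn, hcoeff n hn, map_zero]
  rw [hred]
  exact isAlgebraic_algebraMap _

end Transcendence

end Fermat.Agent.S18.H25
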