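/-
S18 / wave 4 (helper25): the bridge leaf `degree_data_of_rel` (B4d/B5d) of the sub-skeleton of
helper28, VERBATIM, from the landed pieces:
* `H25.degree_data_generic`, `H25.transcendental_of_red`  (generic core, `DegreeData.lean`);
* `H66.finite_top`, `H66.finrank_top_le`                  (characteristic zero, top function);
* `H28.psi_le_relfinrank_kA`, `H28.separable_kA`, `H28.kA_charP`  (special fibre).
-/
import Fermat.Agent.S18.H25.DegreeData
import Fermat.Agent.S18.H28.TopFacts
import Fermat.Agent.S18.H66.Tops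

set_option autoImplicit false

open AlgebraicCurve IntermediateField ModularCurve

noncomputable section

namespace Fermat.Agent.S18.H25

open Fermat.Agent.S18.H74 Fermat.Agent.S18.H28

/-- **B4d/B5d**: degree and separability data for a base function `x` with `j(q^{N'}) x = Nm(x)`,
`Nm ∈ ℤ[X]` monic of degree `> 1` with `Nm(0) ≠ 0` on both fibres. -/
theorem degree_data_of_rel (N' : ℕ) [NeZero N'] {ℓ : ℕ} [Fact ℓ.Prime] (hℓN' : ¬ ℓ ∣ N')
    (A : ValuationSubring Kb) (hA : A.LiesOverPrime ℓ)
    (X0 : LaurentSeries A) (x : FN N') (hx : (x : LaurentSeries Kb) = incA A X0)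
    (hxk : redA A X0 ∈ modularFunctionFieldFullC (kA A) N')
    (htr : Transcendental (kA A) (redA A X0))
    (Nm : Polynomial ℤ) (hNm : Nm.Monic) (hNm1 : 1 < Nm.natDegree)
    (hNm0 : ¬ (ℓ : ℤ) ∣ Nm.eval 0)
    (hrel : jtop N' * x = Polynomial.eval₂ (Int.castRingHom (FN N')) x Nm)
    (hrelk : jqNModC (kA A) N' * redA A X0 =
      Polynomial.eval₂ (Int.castRingHom (LaurentSeries (kA A))) (redA A X0) Nm) :
    FiniteDimensional Kb⟮x⟯ (FN N') ∧
    Module.finrank Kb⟮x⟯ (FN N') ≤
      IntermediateField.relfinrank (IntermediateField.adjoin (kA A) {redA A X0})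
        (modularFunctionFieldFullC (kA A) N') ∧
    ∀ y ∈ modularFunctionFieldFullC (kA A) N',
      IsSeparable (IntermediateField.adjoin (kA A) {redA A X0}) y := by
  have hchar : CharP (kA A) ℓ := kA_charP A hA
  have hK0 : ((Nm.eval 0 : ℤ) : Kb) ≠ 0 := by
    intro h0
    rw [Int.cast_eq_zero] at h0
    exact hNm0 (by rw [h0]; exact dvd_zero _)
  have hk0 : ((Nm.eval 0 : ℤ) : kA A) ≠ 0 := by
    rw [Ne, CharP.intCast_eq_zero_iff (kA A) ℓ]
    exact hNm0
  have hfin : FiniteDimensional Kb⟮jtop N'⟯ (FN N') := Fermat.Agent.S18.H66.finite_top N'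
  have hle : Module.finrank Kb⟮jtop N'⟯ (FN N') ≤ dedekindPsi N' :=
    Fermat.Agent.S18.H66.finrank_top_le N'
  exact degree_data_generic x (jtop N')
    (transcendental_of_red A (modularFunctionFieldBar N') x X0 hx htr)
    (modularFunctionFieldFullC (kA A) N') (redA A X0) (jqNModC (kA A) N') hxk htr
    Nm hNm hNm1 hK0 hk0 hrel hrelk (dedekindPsi N') hfin hle
    (psi_le_relfinrank_kA N' hℓN' A hA) (separable_kA N' hℓN' A hA)

end Fermat.Agent.S18.H25
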