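/-
S18 / wave 4 (helper25): BACKUP endgame of the abstract Theorem T for a prime exponent
(leaf `absT_prime` of the skeleton of helper74) — the assembly of the leaves
(L2) `card_le_of_approx`, (L3a) `exists_approxRoot`, (L3c) `exists_bound`, (L3d) `approx_mem_disc`,
(L3e) `exists_subspaces` and `Setup.cartesian`, stated CONDITIONALLY on the leaf statements
(for the given `m`, `u`), so that the file has no open goal.

Argument.  Assume `u` is not an `m`-th power.  Take `n` large, the subspaces `V_j` of (L3e),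
`c₀, N₀` of (L3c), `N₁` of (L3d), an approximate root `g` of order `max N₀ N₁`, and the map
`Φ : ⊕ V_j → F`, `(h_j) ↦ ∑ h_j g^j`.  By (L3c) (applied to all multiples) `Φ` is injective, so its
range `W` has dimension `∑ dim V_j ≥ m μ n - c`.  An orthonormal basis of `W` (cartesian) consists
of elements `∑ h_j g^j ∈ O`; by (L3c) and (L3d) they satisfy the hypotheses of (L2), hence
`dim W ≤ (n + c₁) μ`: a contradiction for `n` large since `m ≥ 2`.
-/
import Fermat.Agent.S18.H74.CoreDefs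

set_option autoImplicit false

open AlgebraicCurve IntermediateField

noncomputable section

namespace Fermat.Agent.S18.H25

open Fermat.Agent.S18.H74

variable {K : Type*} [Field K] {A : ValuationSubring K} {F : Type*} [Field F] [Algebra K F]
  {O : ValuationSubring F} {x : F}

/-- A one-unit is nonzero. -/
theorem ne_zero_of_sub_one_mem_nonunits {u : F} (hu : u - 1 ∈ O.nonunits) : u ≠ 0 := by
  rintro rfl
  have h := O.mem_nonunits_iff.mp hu
  rw [zero_sub, Valuation.map_neg, map_one] at h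
  exact lt_irrefl _ h

/-- If all `K`-multiples of `f` are bounded (lie in `c₀⁻¹ O`), then `f = 0`. -/
theorem eq_zero_of_forall_smul_mem (hA : A ≠ ⊤)
    (hmem : ∀ a : K, algebraMap K F a ∈ O ↔ a ∈ A)
    (hscale : ∀ f : F, f ≠ 0 → ∃ c : K, c ≠ 0 ∧ algebraMap K F c * f ∈ O ∧
      (algebraMap K F c * f)⁻¹ ∈ O)
    (f : F) (h : ∀ a : K, algebraMap K F a * f ∈ O) : f = 0 := by
  by_contra hf
  obtain ⟨c, hc, _, hc2⟩ := hscale f hf
  -- an element of `K` outside `A`
  obtain ⟨a, ha⟩ : ∃ a : K, a ∉ A := by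
    by_contra hall
    apply hA
    refine SetLike.ext fun y => ⟨fun _ => ValuationSubring.mem_top y, fun _ => ?_⟩
    by_contra hy
    exact hall ⟨y, hy⟩
  have h1 := h (a * c)
  have h2 : algebraMap K F a = algebraMap K F (a * c) * f * (algebraMap K F c * f)⁻¹ := by
    have hcF : algebraMap K F c ≠ 0 := by simpa using hc
    rw [map_mul]
    field_simp
  have h3 : algebraMap K F a ∈ O := by
    rw [h2]
    exact O.mul_mem _ _ h1 hc2
  exact ha ((hmem a).mp h3)

/-- **Theorem T for a prime exponent, backup endgame**, conditional on the statements of the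
leaves (L2), (L3a), (L3c), (L3d), (L3e) for the given `m` and `u`. -/
theorem absT_prime_of_leaves (hA : A ≠ ⊤) (hS : Setup K A F O x)
    (m : ℕ) (hmp : m.Prime) (u : F)
    (hL2 : ∃ c₀ : ℕ, ∀ (n d : ℕ) (f : Fin d → F), IsON A O f →
      (∀ i, ∀ b ∈ A, ∃ f' ∈ discRing A O x b, f i - f' ∈ O.nonunits) →
      (∀ i, ∃ f' : F, x⁻¹ ^ n * f' ∈ discRing A O x⁻¹ 0 ∧ f i - f' ∈ O.nonunits) →
      d ≤ (n + c₀) * Module.finrank K⟮x⟯ F)
    (hL3a : ∀ N : ℕ, ∃ g : F, IsApproxRoot O m u N g)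
    (hL3c : (¬ ∃ w : F, u = w ^ m) → ∀ V : Fin m → Submodule K F,
      (∀ j, FiniteDimensional K (V j)) →
      ∃ (c₀ : K) (N₀ : ℕ), c₀ ≠ 0 ∧ ∀ N, N₀ ≤ N → ∀ g : F, IsApproxRoot O m u N g →
        ∀ h : Fin m → F, (∀ j, h j ∈ V j) → (∑ j, h j * g ^ (j : ℕ)) ∈ O →
          ∀ j, algebraMap K F c₀ * h j ∈ O)
    (hL3d : ∀ (n : ℕ) (c₀ : K), c₀ ≠ 0 →
      ∃ N₁ : ℕ, ∀ N, N₁ ≤ N → ∀ g : F, IsApproxRoot O m u N g →
        ∀ h : Fin m → F, (∀ j : Fin m, DivCond K x m u n j (h j)) →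
          (∀ j, algebraMap K F c₀ * h j ∈ O) → (∑ j, h j * g ^ (j : ℕ)) ∈ O →
          (∀ b ∈ A, ∃ f' ∈ discRing A O x b, (∑ j, h j * g ^ (j : ℕ)) - f' ∈ O.nonunits) ∧
          ∃ f' : F, x⁻¹ ^ n * f' ∈ discRing A O x⁻¹ 0 ∧
            (∑ j, h j * g ^ (j : ℕ)) - f' ∈ O.nonunits)
    (hL3e : ∃ c : ℕ, ∀ n : ℕ, ∃ V : Fin m → Submodule K F, (∀ j, FiniteDimensional K (V j)) ∧
      (∀ j : Fin m, ∀ h ∈ V j, DivCond K x m u n j h) ∧
      m * Module.finrank K⟮x⟯ F * n ≤ (∑ j, Module.finrank K (V j)) + c) :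
    ∃ w : F, u = w ^ m := by
  classical
  by_contra hnot
  obtain ⟨c₁, hcard⟩ := hL2
  obtain ⟨c, hsub⟩ := hL3e
  have : FiniteDimensional K⟮x⟯ F := hS.finite
  have hμ : 0 < Module.finrank K⟮x⟯ F := Module.finrank_pos
  set μ := Module.finrank K⟮x⟯ F with hμdef
  set n := c₁ * μ + c + 1 with hn
  obtain ⟨V, hVfin, hVdiv, hVdim⟩ := hsub n
  obtain ⟨c₀, N₀, hc₀, hbound⟩ := hL3c hnot V hVfin
  obtain ⟨N₁, hpole⟩ := hL3d n c₀ hc₀
  obtain ⟨g, hg⟩ := hL3a (max N₀ N₁)
  have : ∀ j, FiniteDimensional K (V j) := hVfin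
  -- the map `Φ`
  let Φ : (∀ j : Fin m, V j) →ₗ[K] F :=
    ∑ j : Fin m, (LinearMap.mulRight K (g ^ (j : ℕ))) ∘ₗ (V j).subtype ∘ₗ
      (LinearMap.proj j : (∀ j : Fin m, V j) →ₗ[K] V j)
  have hΦ : ∀ h : ∀ j : Fin m, V j, Φ h = ∑ j, (h j : F) * g ^ (j : ℕ) := by
    intro h
    simp [Φ, LinearMap.sum_apply]
  -- boundedness of the coefficients
  have hbd : ∀ h : ∀ j : Fin m, V j, Φ h ∈ O → ∀ j, algebraMap K F c₀ * (h j : F) ∈ O := by
    intro h hh
    rw [hΦ] at hh
    exact hbound _ (le_max_left _ _) g hg (fun j => (h j : F)) (fun j => (h j).2) hh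
  -- injectivity
  have hinj : Function.Injective Φ := by
    rw [← LinearMap.ker_eq_bot, LinearMap.ker_eq_bot']
    intro h hh
    funext j
    apply Subtype.ext
    simp only [Pi.zero_apply, ZeroMemClass.coe_zero]
    refine eq_zero_of_forall_smul_mem hA hS.mem_iff hS.scale _ fun a => ?_
    have h1 : Φ ((a * c₀⁻¹) • h) ∈ O := by
      rw [map_smul, hh, smul_zero]; exact O.zero_mem
    have h2 := hbd _ h1 j
    have h3 : algebraMap K F c₀ * (((a * c₀⁻¹) • h) j : F) = algebraMap K F a * (h j : F) := by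
      simp only [Pi.smul_apply, SetLike.val_smul, Algebra.smul_def, map_mul, map_inv₀]
      have : algebraMap K F c₀ ≠ 0 := by simpa using hc₀
      field_simp
    rwa [h3] at h2
  -- the range
  set W : Submodule K F := LinearMap.range Φ with hW
  have hWdim : Module.finrank K W = ∑ j, Module.finrank K (V j) := by
    rw [hW, LinearMap.finrank_range_of_inj hinj, Module.finrank_pi_fintype]
  obtain ⟨b, hbW, -, hbON⟩ := hS.cartesian W inferInstance
  have hbO : ∀ i, b i ∈ O := by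
    intro i
    have h1 := (hbON (Pi.single i 1)).mpr (fun k => by
      by_cases hk : k = i
      · subst hk; simp [A.one_mem]
      · simp [Pi.single_eq_of_ne hk, A.zero_mem])
    simpa [Pi.single_apply, ite_smul] using h1
  have hd := hcard n (Module.finrank K W) b hbON
    (fun i => by
      obtain ⟨h, hh⟩ := hbW i
      have hb1 : (∑ j, (h j : F) * g ^ (j : ℕ)) ∈ O := by rw [← hΦ, hh]; exact hbO i
      have hb2 := hbd h (by rw [hh]; exact hbO i)
      have := (hpole _ (le_max_right _ _) g hg (fun j => (h j : F))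
        (fun j => hVdiv j _ (h j).2) hb2 hb1).1
      rwa [← hΦ, hh] at this)
    (fun i => by
      obtain ⟨h, hh⟩ := hbW i
      have hb1 : (∑ j, (h j : F) * g ^ (j : ℕ)) ∈ O := by rw [← hΦ, hh]; exact hbO i
      have hb2 := hbd h (by rw [hh]; exact hbO i)
      have := (hpole _ (le_max_right _ _) g hg (fun j => (h j : F))
        (fun j => hVdiv j _ (h j).2) hb2 hb1).2
      rwa [← hΦ, hh] at this)
  rw [hWdim] at hd
  -- arithmetic
  have h2 : 2 ≤ m := hmp.two_le
  have h3 : 2 * (μ * n) ≤ m * μ * n := by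
    rw [mul_assoc]; exact Nat.mul_le_mul_right _ h2
  have h4 : n ≤ μ * n := Nat.le_mul_of_pos_left _ hμ
  have h5 : (n + c₁) * μ = μ * n + c₁ * μ := by ring
  omega

end Fermat.Agent.S18.H25
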