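/-
S18 / wave 4 (helper25): the abstract Theorem T for a prime exponent (leaf `absT_prime` of the
skeleton of helper74) from the CLEARING LEMMA alone, by the backup endgame: all other leaves are
on main —
* (L2)  `H57.card_le_of_approx`,
* (L3a) `H89.exists_approxRoot`,
* (L3c) `H17.exists_bound`,
* (L3d) `H38.approx_mem_disc_core` (conditional on the clearing lemma for `x` and `x⁻¹`),
* (L3e) `H22.exists_subspaces_of_transcendental` + `H22.transcendental_of_gauss`,
* (S0)  `H64.setup_inv`,
* assembly `H25.absT_prime_of_leaves`.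

`absT_prime_of_clear`      : the clearing statement for the given `x` (finite discs) and for `x⁻¹`
                             (disc at infinity) as hypotheses;
`absT_prime_of_exists_clear` : the skeleton statement of `exists_clear` (for all base functions)
                             as the only hypothesis.
-/
import Fermat.Agent.S18.H25.AbsTPrime
import Fermat.Agent.S18.H57.CardLe
import Fermat.Agent.S18.H89.ApproxPoly
import Fermat.Agent.S18.H17.BoundH74
import Fermat.Agent.S18.H22.Subspaces
import Fermat.Agent.S18.H38.PoleBound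
import Fermat.Agent.S18.H64.SetupInv

set_option autoImplicit false

open AlgebraicCurve IntermediateField

noncomputable section

namespace Fermat.Agent.S18.H25

open Fermat.Agent.S18.H74

variable {K : Type*} [Field K] {A : ValuationSubring K} {F : Type*} [Field F] [Algebra K F]
  {O : ValuationSubring F} {x : F}

/-- `x⁻¹ ∈ O` for the base function of a `Setup`. -/
theorem inv_mem_of_setup (hS : Setup K A F O x) : x⁻¹ ∈ O := by
  have h := hS.gauss Polynomial.X
    (fun i => by
      rw [Polynomial.coeff_X]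
      split_ifs
      · exact A.one_mem
      · exact A.zero_mem)
    ⟨1, by simp, by simp [A.one_mem]⟩
  simpa using h.2

/-- **Theorem T for a prime exponent from the clearing lemma** (for the base function `x` on the
finite residue discs and for `x⁻¹` on the disc at infinity). -/
theorem absT_prime_of_clear [IsAlgClosed K] [CharZero K] (hA : A ≠ ⊤)
    (harch : ∀ a c : K, a ∈ A.nonunits → c ≠ 0 → ∃ n : ℕ, a ^ n * c⁻¹ ∈ A)
    (hS : Setup K A F O x)
    (m : ℕ) (hmp : m.Prime) (hm : ((m : K))⁻¹ ∈ A)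
    (hclear : ∀ b ∈ A, ∀ u : F, u - 1 ∈ O.nonunits →
      (∀ P : Place K F, InDisc A x b P → (m : ℤ) ∣ P.ord u) →
      ∃ g : F, g - 1 ∈ O.nonunits ∧
        ∀ P : Place K F, InDisc A x b P → (m : ℤ) * P.ord g = P.ord u)
    (hclear' : ∀ u : F, u - 1 ∈ O.nonunits →
      (∀ P : Place K F, InDisc A x⁻¹ 0 P → (m : ℤ) ∣ P.ord u) →
      ∃ g : F, g - 1 ∈ O.nonunits ∧
        ∀ P : Place K F, InDisc A x⁻¹ 0 P → (m : ℤ) * P.ord g = P.ord u)
    (u : F) (hu : u - 1 ∈ O.nonunits)
    (hord : ∀ P : Place K F, (m : ℤ) ∣ P.ord u) : ∃ w : F, u = w ^ m := by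
  have hfin : FiniteDimensional K⟮x⟯ F := hS.finite
  have hxtr : Transcendental K x :=
    Fermat.Agent.S18.H22.transcendental_of_gauss hA hS.mem_iff hS.gauss
  refine absT_prime_of_leaves hA hS m hmp u
    (Fermat.Agent.S18.H57.card_le_of_approx hA hS)
    (fun N => ?_)
    (fun hnot V hV => Fermat.Agent.S18.H17.exists_bound hA harch hS m hmp hm u hu hnot V hV)
    (fun n c₀ hc₀ => ?_)
    ?_
  · obtain ⟨p, -, hp⟩ :=
      Fermat.Agent.S18.H89.exists_approxRoot hS.mem_iff m hmp.ne_zero hm u hu N
    exact ⟨_, hp⟩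
  · exact Fermat.Agent.S18.H38.approx_mem_disc_core hA harch hS.mem_iff hS.scale x
      (inv_mem_of_setup hS) m (Nat.cast_ne_zero.mpr hmp.ne_zero) hm hclear hclear' u hu hord n c₀ hc₀
  · exact Fermat.Agent.S18.H22.exists_subspaces_of_transcendental x hxtr m u
      (ne_zero_of_sub_one_mem_nonunits hu)

/-- **Theorem T for a prime exponent from the skeleton statement of `exists_clear`.** -/
theorem absT_prime_of_exists_clear [IsAlgClosed K] [CharZero K] (hA : A ≠ ⊤)
    (harch : ∀ a c : K, a ∈ A.nonunits → c ≠ 0 → ∃ n : ℕ, a ^ n * c⁻¹ ∈ A)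
    (hS : Setup K A F O x)
    (m : ℕ) (hmp : m.Prime) (hm : ((m : K))⁻¹ ∈ A)
    (hclear : ∀ x' : F, Setup K A F O x' → ∀ b : K, b ∈ A → ∀ u : F, u - 1 ∈ O.nonunits →
      (∀ P : Place K F, InDisc A x' b P → (m : ℤ) ∣ P.ord u) →
      ∃ g : F, g - 1 ∈ O.nonunits ∧
        ∀ P : Place K F, InDisc A x' b P → (m : ℤ) * P.ord g = P.ord u)
    (u : F) (hu : u - 1 ∈ O.nonunits)
    (hord : ∀ P : Place K F, (m : ℤ) ∣ P.ord u) : ∃ w : F, u = w ^ m :=
  absT_prime_of_clear hA harch hS m hmp hm (fun b hb u' hu' h' => hclear x hS b hb u' hu' h')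
    (fun u' hu' h' =>
      hclear x⁻¹ (Fermat.Agent.S18.H64.setup_inv hS) 0 A.zero_mem u' hu' h') u hu hord

end Fermat.Agent.S18.H25
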